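import Mathlib.RingTheory.Valuation.LocalSubring
import Mathlib.Tactic
import Fermat.Prelude.Def_FLTPrelim_Ramification
import Fermat.Prelude.Def_EllipticCurve_FrobeniusTrace

/-!
# Places of the algebraic closure of `ℚ` over a prime `q`

Basic facts about valuation subrings `A` of `AlgebraicClosure ℚ` with `A.LiesOverPrime q`:
existence, description through their centre on the algebraic integers, criteria for inertia
and Frobenius elements.
-/

set_option autoImplicit false

noncomputable section

namespace Fermat.Agent.Arith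

/-- The algebraic closure of `ℚ`. -/
abbrev QBar : Type := AlgebraicClosure ℚ

/-- The absolute Galois group of `ℚ`. -/
abbrev GQ : Type := AlgebraicClosure ℚ ≃ₐ[ℚ] AlgebraicClosure ℚ

instance qBar_isAlgebraic : Algebra.IsAlgebraic ℚ (AlgebraicClosure ℚ) :=
  AlgebraicClosure.isAlgebraic ℚ

instance qBar_isAlgClosure : IsAlgClosure ℚ (AlgebraicClosure ℚ) :=
  ⟨inferInstance, inferInstance⟩

instance qBar_isGalois : IsGalois ℚ (AlgebraicClosure ℚ) :=
  haveI : Normal ℚ (AlgebraicClosure ℚ) := IsAlgClosure.normal ℚ (AlgebraicClosure ℚ)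
  ⟨⟩

/-- An algebraic number fixed by the whole Galois group is rational. -/
theorem exists_ratCast_of_fixed {z : AlgebraicClosure ℚ}
    (h : ∀ σ : AlgebraicClosure ℚ ≃ₐ[ℚ] AlgebraicClosure ℚ, σ z = z) :
    ∃ r : ℚ, z = (r : AlgebraicClosure ℚ) := by
  obtain ⟨r, hr⟩ := IntermediateField.mem_bot.mp ((InfiniteGalois.mem_bot_iff_fixed z).mpr h)
  exact ⟨r, hr.symm.trans (eq_ratCast (algebraMap ℚ (AlgebraicClosure ℚ)) r)⟩

section General

variable {L : Type*} [Field L] (A : ValuationSubring L)

/-- Integral elements lie in every valuation subring. -/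
theorem mem_of_isIntegral {x : L} (hx : IsIntegral ℤ x) : x ∈ A := by
  have hA : IsIntegral A x := hx.tower_top
  obtain ⟨y, hy⟩ := (IsIntegrallyClosed.isIntegral_iff (R := A) (K := L)).mp hA
  exact hy ▸ y.2

/-- An element lying in every valuation subring is integral. -/
theorem isIntegral_of_forall_mem {x : L} (h : ∀ V : ValuationSubring L, x ∈ V) :
    IsIntegral ℤ x := by
  by_contra hx
  obtain ⟨V, -, hV⟩ := Subring.exists_le_valuationSubring_of_isIntegrallyClosedIn
    (R := (integralClosure ℤ L).toSubring) (x := x) hx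
  exact hV (h V)

variable {A}

/-- One is not a nonunit of a valuation ring. -/
theorem one_notMem_nonunits : (1 : L) ∉ A.nonunits := by
  simp [ValuationSubring.mem_nonunits_iff]

/-- A sum of nonunits of a valuation ring is a nonunit. -/
theorem nonunits_add {x y : L} (hx : x ∈ A.nonunits) (hy : y ∈ A.nonunits) :
    x + y ∈ A.nonunits :=
  A.nonunits.add_mem hx hy

/-- The negative of a nonunit is a nonunit. -/
theorem nonunits_neg {x : L} (hx : x ∈ A.nonunits) : -x ∈ A.nonunits :=
  A.nonunits.neg_mem hx

/-- A difference of nonunits is a nonunit. -/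
theorem nonunits_sub {x y : L} (hx : x ∈ A.nonunits) (hy : y ∈ A.nonunits) :
    x - y ∈ A.nonunits :=
  A.nonunits.sub_mem hx hy

/-- A nonunit lies in the valuation ring. -/
theorem mem_of_mem_nonunits {x : L} (hx : x ∈ A.nonunits) : x ∈ A :=
  ValuationSubring.nonunits_subset hx

/-- An integral element times a nonunit is a nonunit. -/
theorem nonunits_mul_left {x y : L} (hx : x ∈ A) (hy : y ∈ A.nonunits) :
    x * y ∈ A.nonunits := by
  rw [ValuationSubring.mem_nonunits_iff] at hy ⊢
  rw [map_mul]
  calc A.valuation x * A.valuation y ≤ 1 * A.valuation y :=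
        mul_le_mul_left ((A.valuation_le_one_iff x).mpr hx) _
    _ < 1 := by rwa [one_mul]

/-- A nonunit times an integral element is a nonunit. -/
theorem nonunits_mul_right {x y : L} (hx : x ∈ A.nonunits) (hy : y ∈ A) :
    x * y ∈ A.nonunits := mul_comm y x ▸ nonunits_mul_left hy hx

/-- An integral element is a unit exactly when it is nonzero with integral inverse. -/
theorem notMem_nonunits_iff {x : L} :
    x ∉ A.nonunits ↔ x ≠ 0 ∧ x⁻¹ ∈ A := by
  rw [ValuationSubring.mem_nonunits_iff_or]
  tauto

/-- Every element is integral at the valuation ring or has a nonunit inverse. -/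
theorem eq_zero_or_mem_nonunits_or {x : L} :
    x ∈ A ∨ x⁻¹ ∈ A.nonunits := by
  rw [ValuationSubring.inv_mem_nonunits_iff]
  tauto

/-- Over a field of characteristic zero every prime is a nonunit of some valuation subring. -/
theorem exists_natCast_mem_nonunits (L : Type*) [Field L] [CharZero L] {q : ℕ} (hq : q.Prime) :
    ∃ A : ValuationSubring L, (q : L) ∈ A.nonunits := by
  set R : Subring L := (Int.castRingHom L).range
  let x : R := ⟨(q : L), (q : ℤ), by simp⟩
  have hne : Ideal.span {x} ≠ ⊤ := by
    rw [Ne, Ideal.span_singleton_eq_top]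
    rintro ⟨u, hu⟩
    obtain ⟨m, hm⟩ := (↑u⁻¹ : R).2
    have h1 : (q : L) * (m : L) = 1 := by
      have := congrArg Subtype.val u.mul_inv
      rw [hu] at this
      simpa [x, ← hm] using this
    have h2 : (q : ℤ) * m = 1 := by exact_mod_cast h1
    have := Int.eq_one_of_mul_eq_one_right (by positivity) h2
    exact hq.one_lt.ne' (by exact_mod_cast this)
  obtain ⟨A, -, hA⟩ := Ideal.image_subset_nonunits_valuationSubring _ hne
  exact ⟨A, hA ⟨x, Ideal.subset_span rfl, rfl⟩⟩

end General

section QBarPlaces

/-- The centre of `A` on the ring of algebraic integers. -/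
def centre (A : ValuationSubring QBar) : Ideal (integralClosure ℤ QBar) :=
  (IsLocalRing.maximalIdeal A).comap
    (({ toFun := fun x => ⟨(x : QBar), mem_of_isIntegral A x.2⟩
        map_one' := rfl
        map_mul' := fun _ _ => rfl
        map_zero' := rfl
        map_add' := fun _ _ => rfl } : integralClosure ℤ QBar →+* A))

/-- The centre of `A` consists of the algebraic integers that are nonunits in `A`. -/
theorem mem_centre (A : ValuationSubring QBar) {x : integralClosure ℤ QBar} :
    x ∈ centre A ↔ (x : QBar) ∈ A.nonunits := by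
  show _ ∈ IsLocalRing.maximalIdeal A ↔ _
  exact ValuationSubring.coe_mem_nonunits_iff.symm

instance centre_isPrime (A : ValuationSubring QBar) : (centre A).IsPrime := Ideal.IsPrime.comap _

variable {q : ℕ} {A : ValuationSubring QBar}

/-- A natural number is a nonunit at a place over `q` exactly when `q` divides it. -/
theorem natCast_mem_nonunits_iff (hA : A.LiesOverPrime q) (hq : q.Prime) (m : ℕ) :
    (m : QBar) ∈ A.nonunits ↔ q ∣ m := by
  constructor
  · intro hm
    by_contra hdvd
    have hco : Nat.Coprime q m := (Nat.Prime.coprime_iff_not_dvd hq).mpr hdvd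
    have h : (1 : QBar) = (q : QBar) * (Nat.gcdA q m : ℤ) + (m : QBar) * (Nat.gcdB q m : ℤ) := by
      have := Nat.gcd_eq_gcd_ab q m
      rw [hco.gcd_eq_one] at this
      exact_mod_cast this
    exact one_notMem_nonunits (A := A)
      (h ▸ nonunits_add (nonunits_mul_right hA (intCast_mem A _))
        (nonunits_mul_right hm (intCast_mem A _)))
  · rintro ⟨k, rfl⟩
    rw [Nat.cast_mul]
    exact nonunits_mul_right hA (natCast_mem A k)

/-- An integer is a nonunit at a place over `q` exactly when `q` divides it. -/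
theorem intCast_mem_nonunits_iff (hA : A.LiesOverPrime q) (hq : q.Prime) (m : ℤ) :
    (m : QBar) ∈ A.nonunits ↔ (q : ℤ) ∣ m := by
  rcases Int.natAbs_eq m with h | h <;> rw [h]
  · rw [Int.cast_natCast, natCast_mem_nonunits_iff hA hq, Int.natCast_dvd_natCast]
  · rw [Int.cast_neg, Int.cast_natCast, Int.dvd_neg, Int.natCast_dvd_natCast,
      ← natCast_mem_nonunits_iff hA hq]
    exact ⟨fun h => by simpa using nonunits_neg h, nonunits_neg⟩

/-- A rational number is `A`-integral iff `q` does not divide its denominator. -/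
theorem ratCast_mem_iff (hA : A.LiesOverPrime q) (hq : q.Prime) (r : ℚ) :
    (r : QBar) ∈ A ↔ ¬ q ∣ r.den := by
  have hden : (r.den : QBar) ≠ 0 := Nat.cast_ne_zero.mpr r.den_nz
  have hr : (r : QBar) = (r.num : QBar) * (r.den : QBar)⁻¹ := by
    rw [← div_eq_mul_inv]; exact Rat.cast_def r
  constructor
  · intro hmem hdvd
    have h1 : (r : QBar) * (r.den : QBar) ∈ A.nonunits :=
      nonunits_mul_left hmem ((natCast_mem_nonunits_iff hA hq _).mpr hdvd)
    rw [hr, inv_mul_cancel_right₀ hden, intCast_mem_nonunits_iff hA hq] at h1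
    exact hq.one_lt.ne' (Nat.dvd_one.mp
      (r.reduced.gcd_eq_one ▸ Nat.dvd_gcd (Int.natCast_dvd.mp h1) hdvd))
  · intro hdvd
    rw [hr]
    exact A.mul_mem _ _ (intCast_mem A _)
      (notMem_nonunits_iff.mp
        (mt (natCast_mem_nonunits_iff hA hq _).mp hdvd)).2

/-- An element of a field `L` integral at `A` is a fraction of algebraic integers, with denominator
in `L` a unit at `A`. -/
theorem exists_fraction_mem (hA : A.LiesOverPrime q)
    (hq : q.Prime) (L : IntermediateField ℚ QBar) {x : QBar} (hxL : x ∈ L) (hx : x ∈ A) :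
    ∃ b ∈ L, IsIntegral ℤ b ∧ IsIntegral ℤ (x * b) ∧ b ∉ A.nonunits := by
  classical
  -- a primitive integer polynomial with root `x`
  obtain ⟨f₀, hf₀, hf₀x⟩ :=
    (IsFractionRing.isAlgebraic_iff ℤ ℚ QBar).mpr (Algebra.IsAlgebraic.isAlgebraic (R := ℚ) x)
  set f := f₀.primPart with hf
  have hprim : f.IsPrimitive := f₀.isPrimitive_primPart
  have hfx : Polynomial.aeval x f = 0 :=
    Polynomial.aeval_primPart_eq_zero hf₀ hf₀x
  -- the partial sums `b i = ∑_{j ≥ i} aⱼ x^(j - i)`
  let b : ℕ → QBar := fun i =>
    ∑ j ∈ Finset.Icc i f.natDegree, (f.coeff j : QBar) * x ^ (j - i)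
  have hb_top : ∀ i, f.natDegree < i → b i = 0 := by
    intro i hi
    simp [b, Finset.Icc_eq_empty_of_lt hi]
  have hb_rec : ∀ i, b i = b (i + 1) * x + (f.coeff i : QBar) := by
    intro i
    by_cases hi : i ≤ f.natDegree
    · show ∑ j ∈ Finset.Icc i f.natDegree, _ =
        (∑ j ∈ Finset.Icc (i + 1) f.natDegree, _) * x + _
      rw [Finset.sum_mul, ← Finset.add_sum_erase _ _ (Finset.left_mem_Icc.mpr hi),
        Finset.Icc_erase_left, ← Finset.Icc_add_one_left_eq_Ioc, Nat.sub_self, pow_zero, mul_one,
        add_comm]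
      congr 1
      refine Finset.sum_congr rfl fun j hj => ?_
      rw [Finset.mem_Icc] at hj
      rw [mul_assoc, ← pow_succ, Nat.sub_add_comm hj.1 |>.symm]
      congr 2
      omega
    · rw [hb_top i (by omega), hb_top (i + 1) (by omega),
        Polynomial.coeff_eq_zero_of_natDegree_lt (by omega)]
      simp
  have hb0 : b 0 = 0 := by
    rw [← hfx, Polynomial.aeval_eq_sum_range]
    show ∑ j ∈ Finset.Icc 0 f.natDegree, (f.coeff j : QBar) * x ^ (j - 0) = _
    rw [Nat.range_succ_eq_Icc_zero]
    exact Finset.sum_congr rfl fun j _ => by rw [Nat.sub_zero, zsmul_eq_mul]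
  have hint : ∀ i, IsIntegral ℤ (b i) := fun i => isIntegral_of_forall_mem fun V => by
    rcases V.mem_or_inv_mem x with hxV | hxV
    · exact sum_mem fun j _ => mul_mem (intCast_mem V _) (pow_mem hxV _)
    · induction i with
      | zero => rw [hb0]; exact V.zero_mem
      | succ n ih =>
        rcases eq_or_ne x 0 with rfl | hx0
        · exact sum_mem fun j _ => mul_mem (intCast_mem V _) (pow_mem V.zero_mem _)
        · have : b (n + 1) = (b n - (f.coeff n : QBar)) * x⁻¹ := by
            rw [hb_rec n, add_sub_cancel_right, mul_inv_cancel_right₀ hx0]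
          exact this ▸ mul_mem (sub_mem ih (intCast_mem V _)) hxV
  have hbx : ∀ i, IsIntegral ℤ (b (i + 1) * x) := fun i => by
    have : b (i + 1) * x = b i - (f.coeff i : QBar) := by rw [hb_rec i, add_sub_cancel_right]
    exact this ▸ (hint i).sub (isIntegral_intCast _)
  have hbL : ∀ i, b i ∈ L := fun i =>
    sum_mem fun j _ => mul_mem (intCast_mem L _) (pow_mem hxL _)
  by_contra hcon
  have hall : ∀ i, b i ∈ A.nonunits := by
    intro i
    cases i with
    | zero => rw [hb0]; exact A.nonunits.zero_mem
    | succ n =>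
      by_contra h
      exact hcon ⟨_, hbL (n + 1), hint (n + 1), mul_comm x _ ▸ hbx n, h⟩
  have hcoef : ∀ i, (q : ℤ) ∣ f.coeff i := by
    intro i
    rw [← intCast_mem_nonunits_iff hA hq]
    have : (f.coeff i : QBar) = b i - b (i + 1) * x := by rw [hb_rec i, add_sub_cancel_left]
    exact this ▸ nonunits_sub (hall i) (nonunits_mul_right (hall (i + 1)) hx)
  have := hprim (q : ℤ) (Polynomial.C_dvd_iff_dvd_coeff _ _ |>.mpr hcoef)
  rw [Int.isUnit_iff_natAbs_eq, Int.natAbs_natCast] at this
  exact hq.one_lt.ne' this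

/-- Every `A`-integral algebraic number is a quotient of algebraic integers with denominator a
unit at `A`. -/
theorem exists_integral_fraction (hA : A.LiesOverPrime q) (hq : q.Prime) {x : QBar} (hx : x ∈ A) :
    ∃ a b : QBar, IsIntegral ℤ a ∧ IsIntegral ℤ b ∧ b ∉ A.nonunits ∧ x * b = a := by
  obtain ⟨b, -, hb, hxb, hbA⟩ := exists_fraction_mem hA hq ⊤ IntermediateField.mem_top hx
  exact ⟨x * b, b, hxb, hb, hbA, rfl⟩

end QBarPlaces

end Fermat.Agent.Arith
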