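import Mathlib.Algebra.Algebra.Pi
import Mathlib.RingTheory.Adjoin.Basic

/-!
# Independence and span of equivariant functions to a field

Main results: `eq_zero_of_sum_mul_eq_zero_of_fixed`: linear relations among equivariant functions
descend to the fixed coefficients; `span_eq_top_of_separates`: a monoid of functions separating
the points of a finite set spans all functions.
-/

set_option autoImplicit false

namespace Fermat.Agent.Arith

/-- Equivariant functions without nonzero relations with fixed coefficients have no nonzero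
relations at all. -/
theorem eq_zero_of_sum_mul_eq_zero_of_fixed {M K κ ι : Type*} [Field K] (σ : ι → K ≃+* K)
    (act : ι → M ≃ M) (v : κ → M → K) (hv : ∀ i k m, v k (act i m) = σ i (v k m))
    (hfixed : ∀ (s : Finset κ) (d : κ → K), (∀ k ∈ s, ∀ i, σ i (d k) = d k) →
      (∀ m, ∑ k ∈ s, d k * v k m = 0) → ∀ k ∈ s, d k = 0)
    (s : Finset κ) (c : κ → K) (h : ∀ m, ∑ k ∈ s, c k * v k m = 0) : ∀ k ∈ s, c k = 0 := by
  classical
  induction s using Finset.strongInduction generalizing c with
  | H s ih =>
    by_contra! hne
    obtain ⟨j, hj, hcj⟩ := hne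
    set d : κ → K := fun k => c k * (c j)⁻¹ with hd
    have hdj : d j = 1 := mul_inv_cancel₀ hcj
    have hd0 : ∀ m, ∑ k ∈ s, d k * v k m = 0 := fun m => by
      simp only [hd, mul_right_comm _ (c j)⁻¹, ← Finset.sum_mul, h m, zero_mul]
    refine one_ne_zero (hdj.symm.trans (hfixed s d (fun k hk i => ?_) hd0 j hj))
    rcases eq_or_ne k j with rfl | hkj
    · rw [hdj, map_one]
    have hsub : ∀ m, ∑ l ∈ s.erase j, (σ i (d l) - d l) * v l m = 0 := by
      intro m
      rw [Finset.sum_erase _ (by rw [hdj, map_one, sub_self, zero_mul])]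
      simp only [sub_mul, Finset.sum_sub_distrib, hd0 m, sub_zero]
      have := congrArg (σ i) (hd0 ((act i).symm m))
      simp only [map_sum, map_mul, map_zero] at this
      refine Eq.trans (Finset.sum_congr rfl fun l _ => ?_) this
      rw [← hv, Equiv.apply_symm_apply]
    exact sub_eq_zero.mp (ih _ (Finset.erase_ssubset hj) (fun l => σ i (d l) - d l) hsub k
      (Finset.mem_erase.mpr ⟨hkj, hk⟩))

/-- A monoid of functions to a field that separates the points of a finite set spans all
functions. -/
theorem span_eq_top_of_separates {M K : Type*} [Finite M] [Field K] (H : Submonoid (M → K))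
    (hsep : ∀ m m', (∀ f ∈ H, f m = f m') → m = m') :
    Submodule.span K (H : Set (M → K)) = ⊤ := by
  classical
  have := Fintype.ofFinite M
  rw [eq_top_iff]
  let S : Subalgebra K (M → K) := Algebra.adjoin K (H : Set (M → K))
  have hS : Subalgebra.toSubmodule S = Submodule.span K (H : Set (M → K)) := by
    rw [Algebra.adjoin_eq_span, Submonoid.closure_eq]
  rw [← hS]
  rintro g -
  have hg : g = ∑ m, algebraMap K (M → K) (g m) * Pi.single m 1 := by
    funext x
    simp [Finset.sum_apply, Pi.single_apply]
  rw [hg]
  refine Submodule.sum_mem _ fun m _ => S.mul_mem (S.algebraMap_mem _) ?_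
  have hex : ∀ m', m' ≠ m → ∃ f ∈ H, f m ≠ f m' := by
    intro m' hm'
    by_contra! hcon
    exact hm' (hsep m m' hcon).symm
  choose f hf hfne using hex
  have hprod : Pi.single m 1 = ∏ m' : {m' // m' ≠ m},
      algebraMap K (M → K) (f m' m'.2 m - f m' m'.2 m')⁻¹ *
        (f m' m'.2 - algebraMap K (M → K) (f m' m'.2 m')) := by
    funext x
    rw [Finset.prod_apply]
    rcases eq_or_ne x m with rfl | hx
    · rw [Pi.single_eq_same]
      refine (Finset.prod_eq_one fun m' _ => ?_).symm
      simp [inv_mul_cancel₀ (sub_ne_zero.mpr (hfne m' m'.2))]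
    · rw [Pi.single_eq_of_ne hx]
      exact (Finset.prod_eq_zero (Finset.mem_univ ⟨x, hx⟩) (by simp)).symm
  rw [hprod]
  exact S.prod_mem fun m' _ => S.mul_mem (S.algebraMap_mem _)
    (S.sub_mem (Algebra.subset_adjoin (hf _ _)) (S.algebraMap_mem _))

end Fermat.Agent.Arith
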