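import Fermat.Agent.Arith.Frobenius

/-!
# Lifting inertia from a finite level

The element of the finite level may either lie over a normal subgroup or just normalise it.
-/

set_option autoImplicit false

noncomputable section

namespace Fermat.Agent.Arith

open scoped Pointwise

variable {q : ℕ} {A : ValuationSubring QBar}

/-- If `g` normalises the closed subgroup `H` and acts trivially modulo `A` on the algebraic
integers fixed by `H`, then some element of `H * g` is in the inertia group at `A`. -/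
theorem exists_inertia_lift_of_conj (hA : A.LiesOverPrime q) (hq : q.Prime) (H : Subgroup GQ)
    (hH : IsClosed (H : Set GQ)) (g : GQ) (hn : ∀ h ∈ H, g * h * g⁻¹ ∈ H ∧ g⁻¹ * h * g ∈ H)
    (hg : ∀ x : QBar, IsIntegral ℤ x → (∀ h ∈ H, h x = x) → g x - x ∈ A.nonunits) :
    ∃ h ∈ H, h * g ∈ A.inertiaSubgroupIn ℚ := by
  have : CompactSpace H := isCompact_iff_compactSpace.mp hH.isCompact
  let R := FixedPoints.subalgebra ℤ ZBar H
  have : SMulCommClass H R ZBar := ⟨fun h r x => by
    show h • ((r : ZBar) * x) = (r : ZBar) * h • x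
    rw [smul_mul', show h • (r : ZBar) = r from r.2 h]⟩
  have : Algebra.IsInvariant R ZBar H := ⟨fun x hx => ⟨⟨x, hx⟩, rfl⟩⟩
  have hfix : ∀ x : R, ∀ h ∈ H, h ((x : ZBar) : QBar) = ((x : ZBar) : QBar) := fun x h hh =>
    congrArg Subtype.val (x.2 ⟨h, hh⟩)
  -- the two primes have the same centre on the fixed ring
  have hunder : (centre (g • A)).under R = (centre A).under R := by
    ext x
    show (x : ZBar) ∈ centre (g • A) ↔ (x : ZBar) ∈ centre A
    rw [centre_smul, Ideal.mem_pointwise_smul_iff_inv_smul_mem, mem_centre, mem_centre]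
    have hy : ∀ h ∈ H, h ((g⁻¹ • (x : ZBar) : ZBar) : QBar) = ((g⁻¹ • (x : ZBar) : ZBar) : QBar) :=
      fun h hh => by
      rw [integralClosure.coe_smul]
      show (h * g⁻¹) _ = g⁻¹ _
      have := hfix x _ (hn h hh).1
      calc (h * g⁻¹) ((x : ZBar) : QBar) = (g⁻¹ * (g * h * g⁻¹)) ((x : ZBar) : QBar) := by group
        _ = g⁻¹ ((x : ZBar) : QBar) := by rw [AlgEquiv.mul_apply, this]
    have h1 := hg _ (g⁻¹ • (x : ZBar)).2 hy
    rw [integralClosure.coe_smul] at h1 ⊢
    rw [← AlgEquiv.smul_def g, smul_inv_smul] at h1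
    constructor
    · intro h2; simpa using nonunits_add h1 h2
    · intro h2; simpa using nonunits_sub h2 h1
  obtain ⟨h₁, hh₁⟩ := Algebra.IsInvariant.exists_smul_of_under_eq_of_profinite (A := R) (G := H)
    (centre (g • A)) (centre A) hunder
  set σ : GQ := (h₁ : GQ) * g with hσdef
  have hσA : σ • A = A := by
    refine eq_of_centre_eq (liesOverPrime_smul_iff.mpr hA) hA hq ?_
    rw [centre_smul, hσdef, mul_smul, ← centre_smul]
    exact hh₁.symm
  -- the residue automorphism of `σ`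
  have : (centre A).LiesOver ((centre A).under R) := ⟨rfl⟩
  have hstab : σ • centre A = centre A := by rw [← centre_smul, hσA]
  let P : Ideal R := (centre A).under R
  let F₀ : (ZBar ⧸ centre A) ≃+* ZBar ⧸ centre A :=
    Ideal.quotientEquiv (centre A) (centre A) (MulSemiringAction.toRingEquiv GQ ZBar σ) hstab.symm
  let F : (ZBar ⧸ centre A) ≃ₐ[R ⧸ P] ZBar ⧸ centre A :=
    AlgEquiv.ofRingEquiv (f := F₀) fun r => by
      obtain ⟨x, rfl⟩ := Ideal.Quotient.mk_surjective r
      show Ideal.Quotient.mk (centre A) (σ • (x : ZBar)) = Ideal.Quotient.mk (centre A) (x : ZBar)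
      rw [Ideal.Quotient.eq, mem_centre]
      show σ ((x : ZBar) : QBar) - ((x : ZBar) : QBar) ∈ A.nonunits
      rw [hσdef, AlgEquiv.mul_apply]
      have h2 := hg _ (x : ZBar).2 (hfix x)
      have h3 : (h₁ : GQ) (g ((x : ZBar) : QBar)) = g ((x : ZBar) : QBar) := by
        have h4 := (hn (h₁ : GQ) h₁.2).2
        conv_rhs => rw [← hfix x _ h4]
        simp only [← AlgEquiv.smul_def, mul_smul, smul_inv_smul]
      rw [h3]; exact h2
  obtain ⟨⟨h₂, hh₂⟩, hh₂F⟩ :=
    Ideal.Quotient.stabilizerHom_surjective_of_profinite (A := R) (G := H) P (centre A) F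
  refine ⟨((h₂⁻¹ * h₁ : H) : GQ), (h₂⁻¹ * h₁ : H).2, (mem_inertia_iff hA hq).mpr fun x hx => ?_⟩
  have h5 := DFunLike.congr_fun hh₂F (Ideal.Quotient.mk (centre A) ⟨x, hx⟩)
  have h6 : Ideal.Quotient.mk (centre A) (h₂ • ⟨x, hx⟩) =
      Ideal.Quotient.mk (centre A) (σ • ⟨x, hx⟩) := h5
  rw [Ideal.Quotient.eq, mem_centre] at h6
  have h7 : (h₂ : GQ) x - σ x ∈ A.nonunits := h6
  have hh₂A : (h₂ : GQ)⁻¹ • A = A := by
    rw [inv_smul_eq_iff]
    refine (eq_of_centre_eq (liesOverPrime_smul_iff.mpr hA) hA hq ?_).symm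
    rw [centre_smul]
    exact hh₂
  have h8 := (smul_mem_nonunits_smul_iff (g := (h₂ : GQ)⁻¹)).mpr h7
  rw [hh₂A, smul_sub, ← AlgEquiv.smul_def, inv_smul_smul] at h8
  have h9 : (((h₂⁻¹ * h₁ : H) : GQ) * g) x = (h₂ : GQ)⁻¹ • σ x := by
    rw [hσdef, Subgroup.coe_mul, Subgroup.coe_inv, mul_assoc, AlgEquiv.mul_apply,
      AlgEquiv.smul_def]
  rw [h9]
  simpa using nonunits_neg h8

/-- If `g` acts trivially modulo `A` on the algebraic integers fixed by the closed normal
subgroup `H`, then some element of `H * g` is in the inertia group at `A`. -/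
theorem exists_inertia_lift (hA : A.LiesOverPrime q) (hq : q.Prime) (H : Subgroup GQ) [H.Normal]
    (hH : IsClosed (H : Set GQ)) (g : GQ)
    (hg : ∀ x : QBar, IsIntegral ℤ x → (∀ h ∈ H, h x = x) → g x - x ∈ A.nonunits) :
    ∃ h ∈ H, h * g ∈ A.inertiaSubgroupIn ℚ :=
  exists_inertia_lift_of_conj hA hq H hH g (fun h hh =>
    ⟨Subgroup.Normal.conj_mem ‹_› h hh g, Subgroup.Normal.conj_mem' ‹_› h hh g⟩) hg

end Fermat.Agent.Arith
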