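import Fermat.Agent.Arith.Minkowski
import Fermat.Agent.Arith.RootsOfUnity
import Mathlib.NumberTheory.Cyclotomic.CyclotomicCharacter
import Mathlib.NumberTheory.LSeries.PrimesInAP

/-!
# The cyclotomic characters of the absolute Galois group of `ℚ`

For every `n ≠ 0` we restrict Mathlib's `modularCyclotomicCharacter` to `Gal(ℚ̄/ℚ)`. The main
results are its values at Frobenius and inertia away from `n`, that it factors through a number
field, that it is surjective, and that for `n` a power of `p` it is already surjective on every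
inertia group over `p`.
-/

set_option autoImplicit false

noncomputable section

namespace Fermat.Agent.Arith

open scoped Pointwise

variable {n q : ℕ} [NeZero n] {A : ValuationSubring QBar} {σ : GQ}

/-- The mod `n` cyclotomic character as a homomorphism on the absolute Galois group. -/
def cyclotomicHom (n : ℕ) [NeZero n] : GQ →* (ZMod n)ˣ where
  toFun σ := modularCyclotomicCharacter QBar (HasEnoughRootsOfUnity.natCard_rootsOfUnity QBar n)
    (σ : QBar ≃+* QBar)
  map_one' := map_one (modularCyclotomicCharacter QBar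
    (HasEnoughRootsOfUnity.natCard_rootsOfUnity QBar n))
  map_mul' σ τ := map_mul (modularCyclotomicCharacter QBar
    (HasEnoughRootsOfUnity.natCard_rootsOfUnity QBar n)) (σ : QBar ≃+* QBar) (τ : QBar ≃+* QBar)

/-- `cyclotomicHom` is Mathlib's `modularCyclotomicCharacter` on `QBar`. -/
theorem cyclotomicHom_apply (σ : GQ) :
    cyclotomicHom n σ = modularCyclotomicCharacter QBar
      (HasEnoughRootsOfUnity.natCard_rootsOfUnity QBar n) (σ : QBar ≃+* QBar) :=
  rfl

/-- `σ` raises an `n`-th root of unity to the power given by the cyclotomic character. -/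
theorem apply_root_eq_pow_cyclotomicHom (σ : GQ) {ζ : QBar} (hζ : ζ ^ n = 1) :
    σ ζ = ζ ^ (cyclotomicHom n σ : ZMod n).val :=
  modularCyclotomicCharacter.spec QBar (HasEnoughRootsOfUnity.natCard_rootsOfUnity QBar n)
    (σ : QBar ≃+* QBar) (t := (rootsOfUnity.mkOfPowEq ζ hζ : rootsOfUnity n QBar))
    (rootsOfUnity.mkOfPowEq ζ hζ).2

/-- The character of `σ` is `c` if `σ` raises every `n`-th root of unity to the `c`-th power. -/
theorem cyclotomicHom_eq_natCast {c : ℕ} (h : ∀ ζ : QBar, ζ ^ n = 1 → σ ζ = ζ ^ c) :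
    (cyclotomicHom n σ : ZMod n) = c :=
  modularCyclotomicCharacter_eq_natCast _ h

/-- The character of `σ` is trivial if `σ` fixes every `n`-th root of unity. -/
theorem cyclotomicHom_eq_one (h : ∀ ζ : QBar, ζ ^ n = 1 → σ ζ = ζ) : cyclotomicHom n σ = 1 := by
  refine Units.ext ?_
  rw [cyclotomicHom_eq_natCast (c := 1) fun ζ hζ => by rw [pow_one, h ζ hζ], Nat.cast_one,
    Units.val_one]

/-- The character of a Frobenius at `q ∤ n` is `q`. -/
theorem cyclotomicHom_frobenius (hA : A.LiesOverPrime q) (hq : q.Prime)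
    (hσ : A.IsFrobeniusAt σ q) (hqn : ¬ q ∣ n) : (cyclotomicHom n σ : ZMod n) = q :=
  modularCyclotomicCharacter_frobenius hA hq hσ _ hqn

/-- The character is trivial on inertia at `q ∤ n`. -/
theorem cyclotomicHom_inertia (hA : A.LiesOverPrime q) (hq : q.Prime)
    (hσ : σ ∈ A.inertiaSubgroupIn ℚ) (hqn : ¬ q ∣ n) : cyclotomicHom n σ = 1 :=
  modularCyclotomicCharacter_inertia hA hq hσ _ hqn

/-- The character modulo a divisor is trivial where that modulo `n` is. -/
theorem cyclotomicHom_eq_one_of_dvd {m : ℕ} [NeZero m] (hmn : m ∣ n)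
    (h : cyclotomicHom n σ = 1) : cyclotomicHom m σ = 1 := by
  refine cyclotomicHom_eq_one fun t ht => ?_
  have ht' : t ^ n = 1 := by
    obtain ⟨d, rfl⟩ := hmn
    rw [pow_mul, ht, one_pow]
  rw [apply_root_eq_pow_cyclotomicHom σ ht', h, Units.val_one]
  rcases eq_or_ne n 1 with rfl | hn
  · rw [pow_one] at ht'
    simp [ht']
  · rw [ZMod.val_one'' hn, pow_one]

variable (n) in
/-- The character factors through a number field. -/
theorem cyclotomicHom_factors : ∃ L : IntermediateField ℚ QBar, FiniteDimensional ℚ L ∧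
    ∀ σ : GQ, (∀ x ∈ L, σ x = x) → cyclotomicHom n σ = 1 := by
  obtain ⟨ζ, hζ⟩ : ∃ ζ : QBar, IsPrimitiveRoot ζ n :=
    HasEnoughRootsOfUnity.exists_primitiveRoot QBar n
  refine ⟨IntermediateField.adjoin ℚ {ζ},
    IntermediateField.adjoin.finiteDimensional (Algebra.IsIntegral.isIntegral ζ),
    fun σ hσ => cyclotomicHom_eq_one fun t ht => ?_⟩
  obtain ⟨i, -, rfl⟩ := hζ.eq_pow_of_pow_eq_one ht
  rw [map_pow]
  exact congrArg (· ^ i) (hσ ζ (IntermediateField.subset_adjoin ℚ _ (Set.mem_singleton ζ)))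

variable (n) in
/-- The character is surjective. -/
theorem cyclotomicHom_surjective : Function.Surjective (cyclotomicHom n) := by
  intro a
  obtain ⟨ℓ, hℓn, hℓ, hℓa⟩ :=
    Nat.forall_exists_prime_gt_and_eq_mod (q := n) (a := (a : ZMod n)) a.isUnit n
  obtain ⟨A, hA⟩ := exists_liesOverPrime hℓ
  obtain ⟨σ, hσ⟩ := exists_isFrobeniusAt hA hℓ
  refine ⟨σ, Units.ext ?_⟩
  rw [cyclotomicHom_frobenius hA hℓ hσ
    fun h => absurd (Nat.le_of_dvd (NeZero.pos n) h) (not_le.mpr hℓn), hℓa]

/-- For `n` a power of `p` the character is surjective on every inertia group over `p`. -/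
theorem exists_mem_inertia_cyclotomicHom_eq_of_forall {p : ℕ} (hA : A.LiesOverPrime p)
    (hn : ∀ q : ℕ, q.Prime → q ∣ n → q = p) (a : (ZMod n)ˣ) :
    ∃ σ ∈ A.inertiaSubgroupIn ℚ, cyclotomicHom n σ = a := by
  set T : Subgroup (ZMod n)ˣ := (A.inertiaSubgroupIn ℚ).map (cyclotomicHom n)
  obtain ⟨L, hLfin, hL⟩ := cyclotomicHom_factors n
  have hopen : IsOpen ((T.comap (cyclotomicHom n) : Subgroup GQ) : Set GQ) :=
    Subgroup.isOpen_mono (fun σ hσ => by
      rw [Subgroup.mem_comap, hL σ fun x hx =>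
        (IntermediateField.mem_fixingSubgroup_iff _ _).mp hσ x hx]
      exact T.one_mem) (IntermediateField.fixingSubgroup_isOpen L)
  have htop : T.comap (cyclotomicHom n) = ⊤ := by
    refine eq_top_of_inertia_le _ hopen fun q hq B hB σ hσ => ?_
    rw [Subgroup.mem_comap]
    by_cases hqn : q ∣ n
    · obtain rfl := hn q hq hqn
      obtain ⟨g, rfl⟩ := exists_smul_eq hA hB hq
      have h' : g * (g⁻¹ * σ * g) * g⁻¹ ∈ (g • A).inertiaSubgroupIn ℚ := by group; exact hσ
      refine ⟨_, mem_inertia_smul_iff.mp h', ?_⟩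
      rw [map_mul, map_mul, map_inv, mul_right_comm, inv_mul_cancel, one_mul]
    · rw [cyclotomicHom_inertia hB hq hσ hqn]
      exact T.one_mem
  obtain ⟨σ, rfl⟩ := cyclotomicHom_surjective n a
  obtain ⟨τ, hτ, he⟩ := (htop ▸ Subgroup.mem_top σ : σ ∈ T.comap (cyclotomicHom n))
  exact ⟨τ, hτ, he⟩

/-- The mod `p` character is surjective on every inertia group over the prime `p`. -/
theorem exists_mem_inertia_cyclotomicHom_eq {p : ℕ} [Fact p.Prime] (hA : A.LiesOverPrime p)
    (a : (ZMod p)ˣ) : ∃ σ ∈ A.inertiaSubgroupIn ℚ, cyclotomicHom p σ = a :=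
  exists_mem_inertia_cyclotomicHom_eq_of_forall hA
    (fun _ hq h => (Nat.prime_dvd_prime_iff_eq hq Fact.out).mp h) a

end Fermat.Agent.Arith
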