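import Fermat.Agent.Arith.InertiaLift
import Mathlib.NumberTheory.NumberField.ExistsRamified

/-!
# A Galois representation of finite level trivial on all inertia groups is trivial
-/

set_option autoImplicit false

noncomputable section

namespace Fermat.Agent.Arith

open scoped NumberField

variable {M : Type*} [Monoid M]

/-- The kernel of a monoid homomorphism out of the Galois group, as a subgroup. -/
def galKer (ρ : GQ →* M) : Subgroup GQ := ρ.toHomUnits.ker

/-- `galKer ρ` is where `ρ` is `1`. -/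
theorem mem_galKer {ρ : GQ →* M} {σ : GQ} : σ ∈ galKer ρ ↔ ρ σ = 1 := by
  rw [galKer, MonoidHom.mem_ker, Units.ext_iff]
  rfl

instance galKer_normal (ρ : GQ →* M) : (galKer ρ).Normal := MonoidHom.normal_ker _

/-- The kernel of a homomorphism factoring through a finite level is open. -/
theorem isOpen_galKer_of_fixing {ρ : GQ →* M} (L : IntermediateField ℚ QBar)
    [FiniteDimensional ℚ L] (h : ∀ σ : GQ, (∀ x ∈ L, σ x = x) → ρ σ = 1) :
    IsOpen (galKer ρ : Set GQ) :=
  Subgroup.isOpen_mono
    (fun σ hσ => mem_galKer.mpr (h σ fun x hx =>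
      (IntermediateField.mem_fixingSubgroup_iff _ _).mp hσ x hx))
    (IntermediateField.fixingSubgroup_isOpen L)

/-- The inclusion of the integers of a subfield of `ℚ̄`. -/
def integersToZBar (L : IntermediateField ℚ QBar) : 𝓞 L →+* ZBar where
  toFun x := ⟨((x : L) : QBar), (x.2 : IsIntegral ℤ (x : L)).map (L.val.toRingHom.toIntAlgHom)⟩
  map_one' := Subtype.ext (by simp)
  map_mul' x y := Subtype.ext (by simp)
  map_zero' := Subtype.ext (by simp)
  map_add' x y := Subtype.ext (by simp)

/-- Inertia at the prime under `A` of the fixed field of a closed normal subgroup lifts to inertia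
at `A`. -/
theorem exists_inertia_restrict_eq {p : ℕ} {A : ValuationSubring QBar} (hA : A.LiesOverPrime p)
    (hp : p.Prime) (H : Subgroup GQ) [H.Normal] (hclosed : IsClosed (H : Set GQ))
    [IsGalois ℚ (IntermediateField.fixedField H : IntermediateField ℚ QBar)]
    {τ : Gal((IntermediateField.fixedField H : IntermediateField ℚ QBar)/ℚ)}
    (hτ : τ ∈ ((centre A).comap (integersToZBar (IntermediateField.fixedField H))).inertia _) :
    ∃ g ∈ A.inertiaSubgroupIn ℚ,
      AlgEquiv.restrictNormalHom (IntermediateField.fixedField H : IntermediateField ℚ QBar) g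
        = τ := by
  let L : IntermediateField ℚ QBar := IntermediateField.fixedField H
  let ι := integersToZBar L
  obtain ⟨g, rfl⟩ := AlgEquiv.restrictNormalHom_surjective (K₁ := L) QBar τ
  obtain ⟨h', hh', hin⟩ := exists_inertia_lift hA hp H hclosed g fun x hx hxH => by
    have hxL : x ∈ L := fun σ => hxH σ.1 σ.2
    let y : 𝓞 L := ⟨⟨x, hxL⟩, (isIntegral_algHom_iff (L.val.toRingHom.toIntAlgHom)
      L.val.injective).mp hx⟩
    have := (mem_centre A).mp (show ι (_ • y - y) ∈ centre A from hτ y)
    have hc := AlgEquiv.restrictNormal_commutes g L ⟨x, hxL⟩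
    have h2 : ((ι (AlgEquiv.restrictNormalHom L g • y - y) : ZBar) : QBar) =
        (algebraMap L QBar) ((g.restrictNormal L) ⟨x, hxL⟩) - x := by
      show (algebraMap L QBar) ((AlgEquiv.restrictNormalHom L g • y - y : 𝓞 L) : L) = _
      rw [NumberField.RingOfIntegers.coe_eq_algebraMap, map_sub, map_sub]
      rfl
    rw [h2, hc] at this
    exact this
  refine ⟨h' * g, hin, ?_⟩
  rw [map_mul]
  have h1 : AlgEquiv.restrictNormalHom L h' = 1 := AlgEquiv.ext fun z => Subtype.ext
    ((AlgEquiv.restrictNormal_commutes h' L z).trans (z.2 ⟨h', hh'⟩))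
  rw [h1, one_mul]

/-- An open normal subgroup containing every inertia group is everything, by Minkowski's bound. -/
theorem eq_top_of_inertia_le (H : Subgroup GQ) [H.Normal] (hopen : IsOpen (H : Set GQ))
    (h : ∀ q : ℕ, q.Prime → ∀ A : ValuationSubring QBar, A.LiesOverPrime q →
      A.inertiaSubgroupIn ℚ ≤ H) : H = ⊤ := by
  let L : IntermediateField ℚ QBar := IntermediateField.fixedField H
  have hclosed : IsClosed (H : Set GQ) := H.isClosed_of_isOpen hopen
  have hfix : L.fixingSubgroup = H := InfiniteGalois.fixingSubgroup_fixedField ⟨H, hclosed⟩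
  have : FiniteDimensional ℚ L :=
    (InfiniteGalois.isOpen_iff_finite L).mp (by rw [hfix]; exact hopen)
  have : IsGalois ℚ L := (InfiniteGalois.normal_iff_isGalois L).mp (by rw [hfix]; infer_instance)
  have : NumberField L := { to_finiteDimensional := inferInstance }
  suffices hrank : Module.finrank ℚ L = 1 by
    rw [← hfix, IntermediateField.finrank_eq_one_iff.mp hrank, IntermediateField.fixingSubgroup_bot]
  by_contra hne
  have hpos : 0 < Module.finrank ℚ L := Module.finrank_pos
  obtain ⟨p, hp, hram⟩ :=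
    NumberField.exists_not_isUnramifiedAt_int_of_isGalois (K := L) (𝒪 := 𝓞 L) (by omega)
  obtain ⟨A, hA⟩ := exists_liesOverPrime hp
  let ι := integersToZBar L
  let P : Ideal (𝓞 L) := (centre A).comap ι
  have hp𝔓 : (p : 𝓞 L) ∈ P := by
    show ι p ∈ centre A
    rw [map_natCast, mem_centre]
    exact hA
  apply hram P inferInstance hp𝔓
  have : IsGaloisGroup Gal(L/ℚ) ℤ (𝓞 L) := IsGaloisGroup.of_isFractionRing Gal(L/ℚ) ℤ (𝓞 L) ℚ L
  -- the inertia group at `P` is trivial
  have htriv : ∀ τ ∈ P.inertia Gal(L/ℚ), τ = 1 := by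
    intro τ hτ
    obtain ⟨g, hg, rfl⟩ := exists_inertia_restrict_eq hA hp H hclosed hτ
    have hgH : g ∈ H := h p hp A hA hg
    refine AlgEquiv.ext fun y => Subtype.ext ?_
    refine (AlgEquiv.restrictNormal_commutes g L y).trans ?_
    exact y.2 ⟨g, hgH⟩
  have hPp : P.LiesOver (Ideal.span {(p : ℤ)}) :=
    (Ideal.liesOver_span_iff Ideal.IsPrime.ne_top' (Nat.prime_iff_prime_int.mp hp)).mpr
      (by simpa using hp𝔓)
  have : (Ideal.span {(p : ℤ)}).IsMaximal :=
    PrincipalIdealRing.isMaximal_of_irreducible (Nat.prime_iff_prime_int.mp hp).irreducible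
  rw [← Ideal.ramificationIdx_eq_one_iff,
    ← Ideal.ramificationIdxIn_eq_ramificationIdx (Ideal.span {(p : ℤ)}) P Gal(L/ℚ),
    ← Ideal.card_inertia_eq_ramificationIdxIn (G := Gal(L/ℚ)) (Ideal.span {(p : ℤ)}) P,
    (Subgroup.eq_bot_iff_forall _).mpr htriv]
  exact Subgroup.card_bot

/-- Minkowski: a finite-level representation of `Gal(ℚ̄/ℚ)` trivial on all inertia is trivial. -/
theorem eq_one_of_trivial_on_inertia (ρ : GQ →* M) (L : IntermediateField ℚ QBar)
    [FiniteDimensional ℚ L] (hL : ∀ σ : GQ, (∀ x ∈ L, σ x = x) → ρ σ = 1)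
    (h : ∀ q : ℕ, q.Prime → ∀ A : ValuationSubring QBar, A.LiesOverPrime q →
      ∀ σ ∈ A.inertiaSubgroupIn ℚ, ρ σ = 1) : ρ = 1 := by
  ext σ
  have := eq_top_of_inertia_le (galKer ρ) (isOpen_galKer_of_fixing L hL)
    fun q hq A hA τ hτ => mem_galKer.mpr (h q hq A hA τ hτ)
  exact mem_galKer.mp (this ▸ Subgroup.mem_top σ)

end Fermat.Agent.Arith
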