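import Fermat.Agent.Arith.Places
import Mathlib.Algebra.Algebra.Subalgebra.Lattice
import Mathlib.Algebra.BigOperators.Fin
import Mathlib.Tactic.Ring

/-!
# Precomposition of functions with values in `QBar`
-/

set_option autoImplicit false

noncomputable section

namespace Fermat.Agent.Arith

/-- Precomposition with `π`, as a homomorphism of algebras of `QBar`-valued functions. -/
def precomp (R : Type*) [CommSemiring R] [Algebra R QBar] {X Y : Type} (π : X → Y) :
    (Y → QBar) →ₐ[R] (X → QBar) :=
  AlgHom.pi fun x => Pi.evalAlgHom R (fun _ : Y => QBar) (π x)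

/-- `precomp R π f` is `f ∘ π`. -/
@[simp]
theorem precomp_apply {R : Type*} [CommSemiring R] [Algebra R QBar] {X Y : Type} (π : X → Y)
    (f : Y → QBar) (x : X) : precomp R π f x = f (π x) := rfl

/-- The functions `f` on `Y` for which `(x, y) ↦ f (g x y)` is a sum of products `a x * b y` with
`a, b` in `S`. -/
def sumsOfProducts {R : Type*} [CommRing R] [Algebra R QBar] {X Y : Type}
    (S : Subalgebra R (X → QBar)) (g : X → X → Y) : Subalgebra R (Y → QBar) where
  carrier := {f | ∃ (n : ℕ) (a b : Fin n → (X → QBar)),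
    (∀ i, a i ∈ S) ∧ (∀ i, b i ∈ S) ∧ ∀ x y, f (g x y) = ∑ i, a i x * b i y}
  mul_mem' := by
    rintro f f' ⟨n, a, b, ha, hb, h⟩ ⟨n', a', b', ha', hb', h'⟩
    refine ⟨n * n', fun i => a (finProdFinEquiv.symm i).1 * a' (finProdFinEquiv.symm i).2,
      fun i => b (finProdFinEquiv.symm i).1 * b' (finProdFinEquiv.symm i).2,
      fun i => S.mul_mem (ha _) (ha' _), fun i => S.mul_mem (hb _) (hb' _), fun x y => ?_⟩
    rw [Pi.mul_apply, h, h', Finset.sum_mul_sum, ← finProdFinEquiv.sum_comp,
      ← Finset.univ_product_univ, Finset.sum_product]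
    simp only [Equiv.symm_apply_apply, Pi.mul_apply]
    exact Finset.sum_congr rfl fun i _ => Finset.sum_congr rfl fun j _ => by ring
  add_mem' := by
    rintro f f' ⟨n, a, b, ha, hb, h⟩ ⟨n', a', b', ha', hb', h'⟩
    refine ⟨n + n', Fin.addCases a a', Fin.addCases b b', fun i => ?_, fun i => ?_,
      fun x y => ?_⟩
    · exact Fin.addCases (fun i => by simpa using ha i) (fun i => by simpa using ha' i) i
    · exact Fin.addCases (fun i => by simpa using hb i) (fun i => by simpa using hb' i) i
    · rw [Pi.add_apply, h, h', Fin.sum_univ_add]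
      simp
  algebraMap_mem' c := ⟨1, fun _ => algebraMap R (X → QBar) c, fun _ => 1,
    fun _ => S.algebraMap_mem c, fun _ => S.one_mem, fun x y => by simp⟩

/-- The functions of two variables generated by those of one variable are sums of products. -/
theorem exists_sum_of_mem_precomp_sup {R : Type*} [CommRing R] [Algebra R QBar] {X : Type}
    {S : Subalgebra R (X → QBar)} {F : X × X → QBar}
    (hF : F ∈ S.map (precomp R (Prod.fst : X × X → X)) ⊔ S.map (precomp R Prod.snd)) :
    ∃ (n : ℕ) (a b : Fin n → (X → QBar)),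
      (∀ i, a i ∈ S) ∧ (∀ i, b i ∈ S) ∧ ∀ x y, F (x, y) = ∑ i, a i x * b i y := by
  refine (sup_le ?_ ?_ : _ ≤ sumsOfProducts S Prod.mk) hF
  · rintro _ ⟨f, hf, rfl⟩
    exact ⟨1, fun _ => f, fun _ => 1, fun _ => hf, fun _ => S.one_mem, fun x y => by
      simp [precomp_apply]⟩
  · rintro _ ⟨f, hf, rfl⟩
    exact ⟨1, fun _ => 1, fun _ => f, fun _ => S.one_mem, fun _ => hf, fun x y => by
      simp [precomp_apply]⟩

end Fermat.Agent.Arith
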