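import Fermat.Agent.Arith.RootsOfUnity
import Mathlib.FieldTheory.Finite.Basic
import Mathlib.RingTheory.RootsOfUnity.AlgebraicallyClosed

/-!
# Inertia-fixed lifts of residues

At a place over a prime `q` every nonzero residue is a root of unity of order prime to `q`, hence
the residue of a root of unity, which inertia fixes.
-/

set_option autoImplicit false

noncomputable section

open IsLocalRing

namespace Fermat.Agent.Arith

variable {q : ℕ} {A : ValuationSubring QBar}

/-- Residues at a place over `q` are integral over the prime field. -/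
theorem isIntegral_residue (hA : A.LiesOverPrime q) (hq : q.Prime)
    [Algebra (ZMod q) (ResidueField A)] (z : ResidueField A) : IsIntegral (ZMod q) z := by
  obtain ⟨x, hx, rfl⟩ := exists_integral_residue hA hq z
  obtain ⟨P, hP, hP0⟩ := id hx
  have hPA : P.eval₂ (Int.castRingHom A) ⟨x, mem_of_isIntegral A hx⟩ = 0 := Subtype.ext (by
    show A.subtype _ = ((0 : A) : QBar)
    rw [Polynomial.hom_eval₂, ZeroMemClass.coe_zero, ← hP0,
      show A.subtype.comp (Int.castRingHom A) = algebraMap ℤ QBar from RingHom.ext_int _ _]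
    rfl)
  refine ⟨P.map (Int.castRingHom (ZMod q)), hP.map _, ?_⟩
  rw [Polynomial.eval₂_map,
    show (algebraMap (ZMod q) (ResidueField A)).comp (Int.castRingHom (ZMod q)) =
      (residue A).comp (Int.castRingHom A) from RingHom.ext_int _ _,
    ← Polynomial.hom_eval₂, hPA, map_zero]

/-- A nonzero residue at a place over `q` is a root of unity of order prime to `q`. -/
theorem exists_pow_residue_eq_one (hA : A.LiesOverPrime q) (hq : q.Prime) {z : ResidueField A}
    (hz : z ≠ 0) : ∃ m : ℕ, 0 < m ∧ ¬ q ∣ m ∧ z ^ m = 1 := by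
  have := residueField_charP hA hq
  have := Fact.mk hq
  let := ZMod.algebra (ResidueField A) q
  let E := IntermediateField.adjoin (ZMod q) ({z} : Set (ResidueField A))
  have : FiniteDimensional (ZMod q) E :=
    IntermediateField.adjoin.finiteDimensional (isIntegral_residue hA hq z)
  have : Finite E := Module.finite_of_finite (ZMod q)
  have := Fintype.ofFinite E
  refine ⟨Fintype.card E - 1, Nat.sub_pos_of_lt Fintype.one_lt_card, fun hdvd => ?_,
    congrArg Subtype.val (FiniteField.pow_card_sub_one_eq_one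
      (⟨z, IntermediateField.mem_adjoin_simple_self _ z⟩ : E) fun e => hz (congrArg Subtype.val e))⟩
  obtain ⟨k, -, hk⟩ := FiniteField.card E q
  have h1 := Nat.dvd_sub (hk ▸ dvd_pow_self q k.2.ne' : q ∣ Fintype.card E) hdvd
  rw [Nat.sub_sub_self Fintype.card_pos] at h1
  exact hq.not_dvd_one h1

/-- A residue at a place over `q` is fixed by a positive power of Frobenius. -/
theorem exists_frobenius_period (hA : A.LiesOverPrime q) (hq : q.Prime) (z : ResidueField A) :
    ∃ n, 0 < n ∧ z ^ q ^ n = z := by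
  rcases eq_or_ne z 0 with rfl | hz
  · exact ⟨1, one_pos, zero_pow (pow_ne_zero _ hq.ne_zero)⟩
  obtain ⟨m, hm, hqm, hzm⟩ := exists_pow_residue_eq_one hA hq hz
  refine ⟨m.totient, Nat.totient_pos.mpr hm, ?_⟩
  obtain ⟨k, hk⟩ := (Nat.modEq_iff_dvd' (Nat.one_le_pow _ _ hq.pos)).mp
    (Nat.ModEq.pow_totient ((hq.coprime_iff_not_dvd).mpr hqm)).symm
  rw [show q ^ m.totient = m * k + 1 from Nat.eq_add_of_sub_eq (Nat.one_le_pow _ _ hq.pos) hk,
    pow_succ, pow_mul, hzm, one_pow, one_mul]

/-- A nonzero residue at a place over `q` is the residue of a root of unity of order prime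
to `q`. -/
theorem exists_root_of_unity_residue_eq (hA : A.LiesOverPrime q) (hq : q.Prime) {z : ResidueField A}
    (hz : z ≠ 0) : ∃ (a : QBar) (ha : a ∈ A) (m : ℕ), 0 < m ∧ ¬ q ∣ m ∧ a ^ m = 1 ∧
      residue A ⟨a, ha⟩ = z := by
  obtain ⟨m, hm, hqm, hzm⟩ := exists_pow_residue_eq_one hA hq hz
  have : NeZero m := ⟨hm.ne'⟩
  obtain ⟨ζ, hζ⟩ := HasEnoughRootsOfUnity.exists_primitiveRoot QBar m
  have hζA : ζ ∈ A := mem_of_isIntegral A (hζ.isIntegral hm)
  -- reduction keeps `ζ` primitive, as it is injective on these roots of unity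
  have hμ : IsPrimitiveRoot (residue A ⟨ζ, hζA⟩) m := by
    refine IsPrimitiveRoot.mk_of_lt _ hm (by
      rw [← map_pow, show (⟨ζ, hζA⟩ : A) ^ m = 1 from Subtype.ext hζ.pow_eq_one, map_one])
      fun l hl hlm h => ?_
    refine hζ.pow_ne_one_of_pos_of_lt hl.ne' hlm (root_eq_one_of_sub_one_mem_nonunits hA hq
      (m := m) (by rw [← pow_mul, mul_comm, pow_mul, hζ.pow_eq_one, one_pow]) hqm ?_)
    rw [← map_pow, ← map_one (residue A)] at h
    exact residue_eq_iff.mp h
  obtain ⟨i, -, hi⟩ := hμ.eq_pow_of_pow_eq_one hzm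
  exact ⟨ζ ^ i, pow_mem hζA i, m, hm, hqm,
    by rw [← pow_mul, mul_comm, pow_mul, hζ.pow_eq_one, one_pow], by rw [← hi, ← map_pow]; rfl⟩

/-- Every residue at a place over `q` lifts to an integer fixed by inertia. -/
theorem exists_inertiaFixed_lift (hA : A.LiesOverPrime q) (hq : q.Prime) (z : ResidueField A) :
    ∃ (a : QBar) (ha : a ∈ A), (∀ τ ∈ A.inertiaSubgroupIn ℚ, τ a = a) ∧
      residue A ⟨a, ha⟩ = z := by
  rcases eq_or_ne z 0 with rfl | hz
  · exact ⟨0, zero_mem _, fun τ _ => map_zero τ, map_zero (residue A)⟩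
  obtain ⟨a, ha, m, -, hqm, ham, hres⟩ := exists_root_of_unity_residue_eq hA hq hz
  exact ⟨a, ha, fun τ hτ => inertia_root hA hq hτ ham hqm, hres⟩

/-- The inverse of a non-integer has residue zero. -/
theorem residue_inv_eq_zero {c : QBar} (hc : c ∉ A) (hi : c⁻¹ ∈ A) : residue A ⟨c⁻¹, hi⟩ = 0 := by
  rw [IsLocalRing.residue_eq_zero_iff]
  intro hu
  obtain ⟨v, hv⟩ := hu.exists_right_inv
  exact hc ((eq_inv_of_mul_eq_one_right (congrArg Subtype.val hv)).trans (inv_inv c) ▸ v.2)

end Fermat.Agent.Arith
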