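import Fermat.Agent.Deform.Burnside
import Fermat.Agent.Deform.Residual

/-!
# A representation with absolutely irreducible reduction spans the endomorphisms, and the trace
pairing against its image is nondegenerate
-/

set_option autoImplicit false

noncomputable section

namespace Fermat.Agent.Arith

open Matrix Module IsLocalRing

variable {T : Type} [CommRing T] [IsLocalRing T]

/-- The image of a representation with absolutely irreducible reduction spans all matrices. -/
theorem span_matOf_eq_top (ρ : GaloisRepAdic T) (habs : ρ.residual.IsAbsolutelyIrreducible)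
    (b : Basis (Fin 2) T ρ.V) :
    Submodule.span T (Set.range fun σ => Fermat.Agent.Deform.matOf ρ b σ) = ⊤ := by
  set N := Submodule.span T (Set.range fun σ => Fermat.Agent.Deform.matOf ρ b σ) with hN
  classical
  refine top_le_iff.mp ?_
  refine Submodule.le_of_le_smul_of_le_jacobson_bot (I := maximalIdeal T) ⟨Finset.univ.image
      (fun p : Fin 2 × Fin 2 => Matrix.single p.1 p.2 (1 : T)), ?_⟩
    (IsLocalRing.maximalIdeal_le_jacobson _) ?_
  · refine top_le_iff.mp fun X _ => ?_
    rw [Matrix.matrix_eq_sum_single X]
    refine Submodule.sum_mem _ fun i _ => Submodule.sum_mem _ fun j _ => ?_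
    rw [show Matrix.single i j (X i j) = X i j • Matrix.single i j (1 : T) by
      rw [Matrix.smul_single, smul_eq_mul, mul_one]]
    exact Submodule.smul_mem _ _ (Submodule.subset_span (Finset.mem_coe.mpr
      (Finset.mem_image.mpr ⟨(i, j), Finset.mem_univ _, rfl⟩)))
  · intro X _
    -- reduce modulo the maximal ideal
    have hres := Fermat.Agent.Deform.matRes_residual ρ b
    have htop := Fermat.Agent.Deform.span_matrix_eq_top ρ.residual habs
      (b.baseChange (ResidueField T))
    let f : Matrix (Fin 2) (Fin 2) T →ₗ[T] Matrix (Fin 2) (Fin 2) (ResidueField T) :=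
      LinearMap.mapMatrix (Algebra.linearMap T (ResidueField T))
    have himg : f X ∈ (N.map f : Set _) := by
      have h1 : f X ∈ Submodule.span (ResidueField T)
          (Set.range fun σ => LinearMap.toMatrixAlgEquiv (b.baseChange (ResidueField T))
            (ρ.residual.ρ σ)) := htop ▸ Submodule.mem_top
      rw [← Submodule.restrictScalars_mem T, Submodule.restrictScalars_span T (ResidueField T)
        IsLocalRing.residue_surjective] at h1
      rw [SetLike.mem_coe, hN, Submodule.map_span, ← Set.range_comp]
      refine (Submodule.span_mono ?_) h1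
      rintro _ ⟨σ, rfl⟩
      refine ⟨σ, ?_⟩
      have := congrArg (fun r => r σ) hres
      exact this.symm
    obtain ⟨Y, hY, hYX⟩ := himg
    rw [← add_sub_cancel Y X]
    refine Submodule.add_mem_sup hY ?_
    have hzero : ∀ i j, (X - Y) i j ∈ maximalIdeal T := fun i j => by
      rw [← residue_eq_zero_iff]
      have := congrFun (congrFun hYX i) j
      show IsLocalRing.residue T (X i j - Y i j) = 0
      rw [map_sub, sub_eq_zero]
      exact this.symm
    rw [Matrix.matrix_eq_sum_single (X - Y)]
    refine Submodule.sum_mem _ fun i _ => Submodule.sum_mem _ fun j _ => ?_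
    rw [show Matrix.single i j ((X - Y) i j) = (X - Y) i j • Matrix.single i j (1 : T) by
      rw [Matrix.smul_single, smul_eq_mul, mul_one]]
    exact Submodule.smul_mem_smul (hzero i j) Submodule.mem_top

/-- For an absolutely irreducible residual representation, if `tr (ρ σ ∘ X) = 0` for all `σ`, then
`X = 0`. -/
theorem eq_zero_of_forall_trace_comp (ρ : GaloisRepAdic T)
    (habs : ρ.residual.IsAbsolutelyIrreducible) (X : Module.End T ρ.V)
    (h : ∀ σ, LinearMap.trace T ρ.V (ρ.ρ σ * X) = 0) : X = 0 := by
  let b := Module.finBasisOfFinrankEq T ρ.V ρ.finrank_eq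
  set M := LinearMap.toMatrixAlgEquiv b X with hM
  have h1 : ∀ Y : Matrix (Fin 2) (Fin 2) T, Matrix.trace (Y * M) = 0 := by
    intro Y
    have hY : Y ∈ Submodule.span T (Set.range fun σ => Fermat.Agent.Deform.matOf ρ b σ) := by
      rw [span_matOf_eq_top ρ habs b]; exact Submodule.mem_top
    induction hY using Submodule.span_induction with
    | mem Y hY =>
      obtain ⟨σ, rfl⟩ := hY
      have := h σ
      rw [LinearMap.trace_eq_matrix_trace T b, LinearMap.toMatrix_mul] at this
      exact this
    | zero => rw [zero_mul, Matrix.trace_zero]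
    | add x y _ _ hx hy => rw [add_mul, Matrix.trace_add, hx, hy, add_zero]
    | smul c x _ hx => rw [smul_mul_assoc, Matrix.trace_smul, hx, smul_zero]
  have h2 : M = 0 := by
    ext i j
    have := h1 (Matrix.single j i 1)
    rw [Matrix.trace_fin_two] at this
    fin_cases i <;> fin_cases j <;>
      simpa [Matrix.mul_apply, Fin.sum_univ_two, Matrix.single] using this
  exact (LinearMap.toMatrixAlgEquiv b).injective (h2.trans (map_zero _).symm)

end Fermat.Agent.Arith
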